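/-
S33 brick A3'(b) **LVL** (helper61; ruling R1 = report 1278 of helper3).

For `N ∣ M` the pull-back `π^* : J₀(N)(ℚ̄) → J₀(M)(ℚ̄)` along the degeneracy covering
`X₀(M) → X₀(N)` induces a map of `p`-adic Tate modules

  `lvlMap p h : Ta_p J₀(N) →ₗ[ℤ_p] Ta_p J₀(M)`

which is

* `Gal(ℚ̄/ℚ)`-equivariant (`lvlMap_rho`; from `PullbackInj12.levelPullback_smul`),
* injective (`lvlMap_injective`; from the push-pull identity `π_* π^* = deg π`
  of `K3Level44.levelPush_levelPullback`, and the Tate module being `ℤ_p`-torsion free — in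
  particular there is no hypothesis `p ∤ deg π`, so `p = 3` and `M = 4 N` is allowed).

The statements are given for `TateModule p (JZero N)` and `TateModule13.rho p (JZero N)`; in
`ES/J/TateJZero13` one has `TJ p N := TateModule p (JZero N)` (an `abbrev`) and
`rhoT p N := rho p (JZero N)` (unfolds by `rfl`), so they apply verbatim to `TJ` / `rhoT`.
This file deliberately does **not** import `TateJZero13` (heavy closure).
-/
import Mathlib
import Fermat.Agent.ES.J.TateModule13
import Fermat.Agent.MAZ.K3Level44.PushPull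

set_option autoImplicit false

open AlgebraicCurve ModularCurve

noncomputable section

namespace Fermat.Agent.S33P.Lvl61

open Fermat.Agent.ES.J.TateModule13 Fermat.Agent.ES.HECKE.LevelPullback12
  Fermat.Agent.MAZ.K3Level44

/-- `ℚbar`. -/
local notation "Qb" => AlgebraicClosure ℚ

/-! ### abstract: a split-up-to-isogeny map induces an injection of Tate modules -/

section Abstract

variable {p : ℕ} [hp : Fact p.Prime] {J J' : Type*} [AddCommGroup J] [AddCommGroup J']

/-- if `g ∘ f = d` with `d ≠ 0` then `T_p f` is injective. -/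
theorem map_injective_of_comp_eq_nsmul (f : J →+ J') (g : J' →+ J) (d : ℕ) (hd : d ≠ 0)
    (hgf : ∀ x, g (f x) = d • x) :
    Function.Injective (map f : TateModule p J →ₗ[ℤ_[p]] TateModule p J') := by
  have hcomp : (map g : TateModule p J' →ₗ[ℤ_[p]] TateModule p J).comp (map f) =
      (d : ℤ_[p]) • LinearMap.id := by
    rw [← map_comp, ← map_nsmul_hom]
    congr 1
    ext x
    rw [AddMonoidHom.comp_apply, hgf, AddMonoidHom.smul_apply, AddMonoidHom.id_apply]
  rw [← LinearMap.ker_eq_bot, LinearMap.ker_eq_bot']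
  intro x hx
  have h1 : (d : ℤ_[p]) • x = 0 := by
    have := LinearMap.congr_fun hcomp x
    rw [LinearMap.comp_apply, hx, map_zero, LinearMap.smul_apply, LinearMap.id_apply] at this
    exact this.symm
  exact eq_zero_of_smul_eq_zero (Nat.cast_ne_zero.mpr hd) h1

/-- an equivariant homomorphism induces an equivariant map of Tate modules. -/
theorem map_rho {G : Type*} [Monoid G] [DistribMulAction G J] [DistribMulAction G J']
    (f : J →+ J') (hf : ∀ (g : G) (x : J), f (g • x) = g • f x) (g : G) (x : TateModule p J) :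
    map f (rho p J g x) = rho p J' g (map f x) := by
  apply Subtype.ext
  funext k
  show proj k (map f (rho p J g x)) = proj k (rho p J' g (map f x))
  rw [proj_map, proj_rho, proj_rho, proj_map, hf]

end Abstract

/-! ### the level-raising map -/

variable (p : ℕ) [hp : Fact p.Prime] {N M : ℕ} [NeZero N] [NeZero M]

/-- **the level-raising map** `Ta_p J₀(N) → Ta_p J₀(M)` for `N ∣ M`, induced by `π^*`. -/
def lvlMap (h : N ∣ M) : TateModule p (JZero N) →ₗ[ℤ_[p]] TateModule p (JZero M) :=
  map (levelPullback h)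

variable {p}

theorem proj_lvlMap (h : N ∣ M) (x : TateModule p (JZero N)) (k : ℕ) :
    proj k (lvlMap p h x) = levelPullback h (proj k x) := rfl

/-- **`G_ℚ`-equivariance** of the level-raising map. -/
theorem lvlMap_rho (h : N ∣ M) (σ : Qb ≃ₐ[ℚ] Qb) (x : TateModule p (JZero N)) :
    lvlMap p h (rho p (JZero N) σ x) = rho p (JZero M) σ (lvlMap p h x) :=
  map_rho (levelPullback h)
    (fun g y => Fermat.Agent.ES.RED.PullbackInj12.levelPullback_smul h g y) σ x

/-- **injectivity** of the level-raising map (no condition on `p`). -/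
theorem lvlMap_injective (h : N ∣ M) : Function.Injective (lvlMap p h) :=
  map_injective_of_comp_eq_nsmul (levelPullback h) (levelPush h) (levelDeg h)
    (levelDeg_pos h).ne' (levelPush_levelPullback h)

variable (p)

/-- **LVL**: for `N ∣ M` there is an injective, `ℤ_p`-linear, `G_ℚ`-equivariant map
`Ta_p J₀(N) → Ta_p J₀(M)`. -/
theorem exists_lvl (h : N ∣ M) :
    ∃ Ψ : TateModule p (JZero N) →ₗ[ℤ_[p]] TateModule p (JZero M),
      Function.Injective Ψ ∧
      ∀ (σ : Qb ≃ₐ[ℚ] Qb) (x : TateModule p (JZero N)),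
        Ψ (rho p (JZero N) σ x) = rho p (JZero M) σ (Ψ x) :=
  ⟨lvlMap p h, lvlMap_injective h, lvlMap_rho h⟩

/-- the level `N' := N` if `4 ∣ N`, else `4 N` of the S33 masterplan. -/
def lvl4 (N : ℕ) : ℕ := if 4 ∣ N then N else 4 * N

theorem dvd_lvl4 (N : ℕ) : N ∣ lvl4 N := by
  unfold lvl4
  split_ifs
  · exact dvd_rfl
  · exact dvd_mul_left N 4

theorem four_dvd_lvl4 (N : ℕ) : 4 ∣ lvl4 N := by
  unfold lvl4
  split_ifs with h
  · exact h
  · exact dvd_mul_right 4 N

instance neZero_lvl4 (N : ℕ) [NeZero N] : NeZero (lvl4 N) := by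
  refine ⟨?_⟩
  unfold lvl4
  split_ifs
  · exact NeZero.ne N
  · exact mul_ne_zero (by norm_num) (NeZero.ne N)

/-- a prime `q ≠ 2` divides `lvl4 N` iff it divides `N`; exactly: `q ∣ lvl4 N ↔ q ∣ N` for odd `q`. -/
theorem prime_dvd_lvl4_iff {q : ℕ} (hq : q.Prime) (hq2 : q ≠ 2) (N : ℕ) : q ∣ lvl4 N ↔ q ∣ N := by
  unfold lvl4
  split_ifs
  · exact Iff.rfl
  · constructor
    · intro h
      rcases (Nat.Prime.dvd_mul hq).mp h with h4 | hN
      · exfalso
        have : q ∣ 2 ^ 2 := by norm_num; exact h4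
        have := (Nat.prime_dvd_prime_iff_eq hq Nat.prime_two).mp (hq.dvd_of_dvd_pow this)
        exact hq2 this
      · exact hN
    · intro h
      exact Dvd.dvd.mul_left h 4

/-- `p`-adic valuation of the level is unchanged for odd `p`: `lvl4 N / p`-type statements
are obtained from this: if `p` is odd and `p ∣ N` exactly once, the same holds for `lvl4 N`. -/
theorem lvl4_eq_mul (N : ℕ) : ∃ e : ℕ, (e = 1 ∨ e = 4) ∧ lvl4 N = e * N := by
  unfold lvl4
  split_ifs
  · exact ⟨1, Or.inl rfl, (one_mul N).symm⟩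
  · exact ⟨4, Or.inr rfl, rfl⟩

/-- **LVL at the S33 level** `N' = lvl4 N`. -/
theorem exists_lvl4 (N : ℕ) [NeZero N] :
    ∃ Ψ : TateModule p (JZero N) →ₗ[ℤ_[p]] TateModule p (JZero (lvl4 N)),
      Function.Injective Ψ ∧
      ∀ (σ : Qb ≃ₐ[ℚ] Qb) (x : TateModule p (JZero N)),
        Ψ (rho p (JZero N) σ x) = rho p (JZero (lvl4 N)) σ (Ψ x) :=
  exists_lvl p (dvd_lvl4 N)

end Fermat.Agent.S33P.Lvl61
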