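/-
S33, A-half (sub-lead helper16, report 1307): **the concrete `β_*`** (helper61).

For `p` prime and a level `M'` the two degeneracy push-forwards
`π₁ = piOne M' p hp`, `π₂ = piTwo M' p hp : J₀(M' p)(ℚ̄) → J₀(M')(ℚ̄)` of `T1B/Degen21/Level`
induce on `p`-adic Tate modules

  `betaT p M' : Ta_p J₀(M' p) →ₗ[ℤ_p] Ta_p J₀(M') × Ta_p J₀(M')`,
  `betaFin p M' : Ta_p J₀(M' p) →ₗ[ℤ_p] (Fin 2 → Ta_p J₀(M'))`,

`ℤ_p`-linear, `Gal(ℚ̄/ℚ)`-equivariant (`betaT_rho`, `betaFin_rho`), with `ℤ_p`-torsion-free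
targets (`torsionFree_prod`, `torsionFree_fin`), and with kernel described levelwise
(`betaT_eq_zero_iff`): `β_* x = 0 ↔ ∀ k, π₁ (x_k) = 0 ∧ π₂ (x_k) = 0`, which is the shape of the
hypotheses `h1 h2` of `S33P/Geo99/Tate.LocalGeomTate.cubic_on_ker` (N1) at every finite level.

As in `Lvl61/Main`, everything is stated for `TateModule p (JZero _)` and `TateModule13.rho`
(`TJ`/`rhoT` of `ES/J/TateJZero13` unfold to these by `rfl`).
-/
import Mathlib
import Fermat.Agent.ES.J.TateModule13
import Fermat.Agent.T1B.Degen21.Level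

set_option autoImplicit false

open AlgebraicCurve ModularCurve

noncomputable section

namespace Fermat.Agent.S33P.Lvl61

open Fermat.Agent.ES.J.TateModule13 Fermat.Agent.T1B.Degen21.Level

/-- `ℚbar`. -/
local notation "Qb" => AlgebraicClosure ℚ

/-! ### abstract: torsion-freeness of products of Tate modules -/

section Abstract

variable {p : ℕ} [hp : Fact p.Prime] {J : Type*} [AddCommGroup J]

/-- `T × T` is `ℤ_p`-torsion free (the form consumed by `dichotomy`/`torsionFree_tensor`). -/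
theorem torsionFree_prod (z : ℤ_[p]) (hz : z ≠ 0) (x : TateModule p J × TateModule p J)
    (hx : z • x = 0) : x = 0 := by
  have h1 : z • x.1 = 0 := congrArg Prod.fst hx
  have h2 : z • x.2 = 0 := congrArg Prod.snd hx
  exact Prod.ext (eq_zero_of_smul_eq_zero hz h1) (eq_zero_of_smul_eq_zero hz h2)

/-- `ι → T` is `ℤ_p`-torsion free. -/
theorem torsionFree_pi {ι : Type*} (z : ℤ_[p]) (hz : z ≠ 0) (x : ι → TateModule p J)
    (hx : z • x = 0) : x = 0 := by
  funext i
  exact eq_zero_of_smul_eq_zero hz (congrFun hx i)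

/-- `T` itself is `ℤ_p`-torsion free, in the same explicit form. -/
theorem torsionFree_tate (z : ℤ_[p]) (hz : z ≠ 0) (x : TateModule p J) (hx : z • x = 0) :
    x = 0 :=
  eq_zero_of_smul_eq_zero hz hx

/-- an element of the Tate module is `0` iff all its components are. -/
theorem eq_zero_iff_forall_proj (x : TateModule p J) : x = 0 ↔ ∀ k, proj k x = 0 :=
  ⟨fun h k => by rw [h, map_zero], eq_zero_of_forall_proj⟩

/-- `T_p f` kills `x` iff `f` kills every component of `x`. -/
theorem map_eq_zero_iff {J' : Type*} [AddCommGroup J'] (f : J →+ J') (x : TateModule p J) :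
    (map f x : TateModule p J') = 0 ↔ ∀ k, f (proj k x) = 0 := by
  rw [eq_zero_iff_forall_proj]
  exact forall_congr' fun k => by rw [proj_map]

/-- equivariance of `T_p f` for an equivariant `f` (twin of `Lvl61.map_rho`, kept separate so that
this file does not import the `levelPush` closure). -/
theorem map_rho' {J' : Type*} [AddCommGroup J'] {G : Type*} [Monoid G] [DistribMulAction G J]
    [DistribMulAction G J'] (f : J →+ J') (hf : ∀ (g : G) (x : J), f (g • x) = g • f x) (g : G)
    (x : TateModule p J) : map f (rho p J g x) = rho p J' g (map f x) := by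
  apply Subtype.ext
  funext k
  show proj k (map f (rho p J g x)) = proj k (rho p J' g (map f x))
  rw [proj_map, proj_rho, proj_rho, proj_map, hf]

end Abstract

/-! ### the two degeneracy maps on Tate modules -/

variable (p : ℕ) [hp : Fact p.Prime] (M' : ℕ) [NeZero M'] [NeZero p]

/-- `T_p π₁ : Ta_p J₀(M' p) → Ta_p J₀(M')`. -/
def piOneT : TateModule p (JZero (M' * p)) →ₗ[ℤ_[p]] TateModule p (JZero M') :=
  map (piOne M' p hp.out)

/-- `T_p π₂ : Ta_p J₀(M' p) → Ta_p J₀(M')`. -/
def piTwoT : TateModule p (JZero (M' * p)) →ₗ[ℤ_[p]] TateModule p (JZero M') :=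
  map (piTwo M' p hp.out)

/-- **`β_*`**, product form. -/
def betaT : TateModule p (JZero (M' * p)) →ₗ[ℤ_[p]]
    TateModule p (JZero M') × TateModule p (JZero M') :=
  (piOneT p M').prod (piTwoT p M')

/-- **`β_*`**, `Fin 2 →` form. -/
def betaFin : TateModule p (JZero (M' * p)) →ₗ[ℤ_[p]] (Fin 2 → TateModule p (JZero M')) :=
  LinearMap.pi ![piOneT p M', piTwoT p M']

/-- the diagonal Galois action on `T × T`. -/
def rhoProd (σ : Qb ≃ₐ[ℚ] Qb) :
    Module.End ℤ_[p] (TateModule p (JZero M') × TateModule p (JZero M')) :=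
  (rho p (JZero M') σ).prodMap (rho p (JZero M') σ)

variable {p M'}

theorem proj_piOneT (x : TateModule p (JZero (M' * p))) (k : ℕ) :
    proj k (piOneT p M' x) = piOne M' p hp.out (proj k x) := rfl

theorem proj_piTwoT (x : TateModule p (JZero (M' * p))) (k : ℕ) :
    proj k (piTwoT p M' x) = piTwo M' p hp.out (proj k x) := rfl

theorem betaT_apply (x : TateModule p (JZero (M' * p))) :
    betaT p M' x = (piOneT p M' x, piTwoT p M' x) := rfl

theorem betaFin_zero (x : TateModule p (JZero (M' * p))) :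
    betaFin p M' x 0 = piOneT p M' x := rfl

theorem betaFin_one (x : TateModule p (JZero (M' * p))) :
    betaFin p M' x 1 = piTwoT p M' x := rfl

omit [NeZero M'] [NeZero p] in
theorem rhoProd_apply (σ : Qb ≃ₐ[ℚ] Qb)
    (y : TateModule p (JZero M') × TateModule p (JZero M')) :
    rhoProd p M' σ y = (rho p (JZero M') σ y.1, rho p (JZero M') σ y.2) := rfl

/-- `T_p π₁` is `G_ℚ`-equivariant. -/
theorem piOneT_rho (σ : Qb ≃ₐ[ℚ] Qb) (x : TateModule p (JZero (M' * p))) :
    piOneT p M' (rho p (JZero (M' * p)) σ x) = rho p (JZero M') σ (piOneT p M' x) :=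
  map_rho' (piOne M' p hp.out) (fun g y => piOne_smul M' p hp.out g y) σ x

/-- `T_p π₂` is `G_ℚ`-equivariant. -/
theorem piTwoT_rho (σ : Qb ≃ₐ[ℚ] Qb) (x : TateModule p (JZero (M' * p))) :
    piTwoT p M' (rho p (JZero (M' * p)) σ x) = rho p (JZero M') σ (piTwoT p M' x) :=
  map_rho' (piTwo M' p hp.out) (fun g y => piTwo_smul M' p hp.out g y) σ x

/-- **`β_*` is `G_ℚ`-equivariant** (product form). -/
theorem betaT_rho (σ : Qb ≃ₐ[ℚ] Qb) (x : TateModule p (JZero (M' * p))) :
    betaT p M' (rho p (JZero (M' * p)) σ x) = rhoProd p M' σ (betaT p M' x) := by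
  rw [betaT_apply, rhoProd_apply, betaT_apply, piOneT_rho, piTwoT_rho]

/-- **`β_*` is `G_ℚ`-equivariant** (`Fin 2 →` form, componentwise action). -/
theorem betaFin_rho (σ : Qb ≃ₐ[ℚ] Qb) (x : TateModule p (JZero (M' * p))) (i : Fin 2) :
    betaFin p M' (rho p (JZero (M' * p)) σ x) i = rho p (JZero M') σ (betaFin p M' x i) := by
  fin_cases i
  · exact piOneT_rho σ x
  · exact piTwoT_rho σ x

/-- **the kernel of `β_*`, levelwise**: `β_* x = 0` iff both degeneracy maps kill every
component `x_k ∈ J₀(M' p)[p^k]`. -/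
theorem betaT_eq_zero_iff (x : TateModule p (JZero (M' * p))) :
    betaT p M' x = 0 ↔
      ∀ k, piOne M' p hp.out (proj k x) = 0 ∧ piTwo M' p hp.out (proj k x) = 0 := by
  rw [betaT_apply, Prod.mk_eq_zero]
  unfold piOneT piTwoT
  rw [map_eq_zero_iff, map_eq_zero_iff]
  exact forall_and.symm

theorem betaFin_eq_zero_iff (x : TateModule p (JZero (M' * p))) :
    betaFin p M' x = 0 ↔ betaT p M' x = 0 := by
  rw [betaT_apply, Prod.mk_eq_zero]
  constructor
  · intro h
    exact ⟨by rw [← betaFin_zero, h]; rfl, by rw [← betaFin_one, h]; rfl⟩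
  · rintro ⟨h1, h2⟩
    funext i
    fin_cases i
    · exact h1
    · exact h2

theorem ker_betaFin : LinearMap.ker (betaFin p M') = LinearMap.ker (betaT p M') := by
  ext x
  rw [LinearMap.mem_ker, LinearMap.mem_ker, betaFin_eq_zero_iff]

/-- the kernel `K' = ker β_*` is `G_ℚ`-stable. -/
theorem rho_mem_ker_betaT (σ : Qb ≃ₐ[ℚ] Qb) {x : TateModule p (JZero (M' * p))}
    (hx : x ∈ LinearMap.ker (betaT p M')) :
    rho p (JZero (M' * p)) σ x ∈ LinearMap.ker (betaT p M') := by
  rw [LinearMap.mem_ker] at hx ⊢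
  rw [betaT_rho, hx, map_zero]

variable (p M')

/-- **summary** (product form): `β_*` with its three properties. -/
theorem exists_beta :
    ∃ β : TateModule p (JZero (M' * p)) →ₗ[ℤ_[p]]
        TateModule p (JZero M') × TateModule p (JZero M'),
      (∀ (σ : Qb ≃ₐ[ℚ] Qb) x, β (rho p (JZero (M' * p)) σ x) =
        (rho p (JZero M') σ (β x).1, rho p (JZero M') σ (β x).2)) ∧
      (∀ x, β x = 0 ↔
        ∀ k, piOne M' p hp.out (proj k x) = 0 ∧ piTwo M' p hp.out (proj k x) = 0) ∧
      (∀ z : ℤ_[p], z ≠ 0 →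
        ∀ y : TateModule p (JZero M') × TateModule p (JZero M'), z • y = 0 → y = 0) :=
  ⟨betaT p M', fun σ x => betaT_rho σ x, betaT_eq_zero_iff, torsionFree_prod⟩

end Fermat.Agent.S33P.Lvl61
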